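import Fermat.Agent.Lib.FrobDensity.Defs
import Fermat.Agent.S14.Analytic.Basic
import Fermat.Agent.S14.Analytic.EulerFactor
import Fermat.Agent.S14.Analytic.NonPrimeNorm
import Fermat.Agent.Lib.Frobenius

/-!
# Frobenius density theorem: SKELETON (statements only)
-/

set_option autoImplicit false

namespace Fermat.Agent.Lib.FrobDensity

open NumberField Ideal Filter Topology
open scoped nonZeroDivisors Pointwise
open Fermat.Agent.S14.Analytic (term zetaSum)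

universe u

/-! ## F1 : file Lib/FrobDensity/Upper.lean -/

theorem sum_primeCount_le_log_zetaSum (M : Type*) [Field M] [NumberField M] {s : ℝ} (hs : 1 < s)
    (F : Finset ℕ) (hF : ∀ ℓ ∈ F, ℓ.Prime) :
    ∑ ℓ ∈ F, (primeCount M ℓ : ℝ) * (ℓ : ℝ) ^ (-s) ≤ Real.log (zetaSum M s) := by sorry

/-! ## F2 : file Lib/FrobDensity/Lower.lean -/

theorem exists_log_zetaSum_le (M : Type*) [Field M] [NumberField M] :
    ∃ B : ℝ, ∀ s : ℝ, 1 < s → ∃ F₀ : Finset ℕ, ∀ F : Finset ℕ, F₀ ⊆ F →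
      Real.log (zetaSum M s) ≤
        ∑ ℓ ∈ F.filter Nat.Prime, (primeCount M ℓ : ℝ) * (ℓ : ℝ) ^ (-s) + B := by sorry

/-! ## F3 : file Lib/FrobDensity/LogAsymp.lean -/

theorem exists_abs_log_zetaSum_sub_le (M : Type*) [Field M] [NumberField M] :
    ∃ B : ℝ, ∀ᶠ s in 𝓝[>] (1 : ℝ), |Real.log (zetaSum M s) - Real.log (1 / (s - 1))| ≤ B := by
  sorry

/-! ## F4 : file Lib/FrobDensity/AnalyticCore.lean -/

/-- ANALYTIC CORE: an integer combination of the prime counting functions of number fields with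
positive total weight cannot vanish at almost all primes. -/
theorem exists_prime_sum_primeCount_ne_zero {ι : Type*} (D : Finset ι) (c : ι → ℤ)
    (hc : 0 < ∑ d ∈ D, c d) (M : ι → Type u) [∀ d, Field (M d)] [∀ d, NumberField (M d)]
    (S : Finset ℕ) :
    ∃ ℓ : ℕ, ℓ.Prime ∧ ℓ ∉ S ∧ ∑ d ∈ D, c d * (primeCount (M d) ℓ : ℤ) ≠ 0 := by sorry

/-! ## F5 : file Lib/FrobDensity/Count.lean -/

open Classical in
theorem primeCount_fixedField_mul_card (E : Type*) [Field E] [NumberField E] [IsGalois ℚ E]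
    (H : Subgroup (E ≃ₐ[ℚ] E)) (ℓ : ℕ) (hℓ : ℓ.Prime)
    (hunr : ∀ P : Ideal (𝓞 E), P.IsPrime → (ℓ : 𝓞 E) ∈ P → Ideal.inertia (E ≃ₐ[ℚ] E) P = ⊥) :
    primeCount (IntermediateField.fixedField H) ℓ * Nat.card H =
      ∑ P ∈ (IsDedekindDomain.primesOverFinset (Ideal.span {(ℓ : ℤ)}) (𝓞 E)).filter
          (fun P => MulAction.stabilizer (E ≃ₐ[ℚ] E) P ≤ H),
        Nat.card (MulAction.stabilizer (E ≃ₐ[ℚ] E) P) := by sorry

/-! ## F6 : file Lib/FrobDensity/Moebius.lean -/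

open Classical in
theorem sum_moebius_le_zpowers {G : Type*} [Group G] (σ : G) (hσ : IsOfFinOrder σ)
    (D : Subgroup G) :
    ∑ d ∈ (orderOf σ).divisors, ArithmeticFunction.moebius d *
        (if D ≤ Subgroup.zpowers (σ ^ d) then (1 : ℤ) else 0) =
      if D = Subgroup.zpowers σ then 1 else 0 := by sorry

theorem sum_moebius_mul_card_zpowers {G : Type*} [Group G] (σ : G) (hσ : IsOfFinOrder σ) :
    ∑ d ∈ (orderOf σ).divisors, ArithmeticFunction.moebius d *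
        (Nat.card (Subgroup.zpowers (σ ^ d)) : ℤ) = Nat.totient (orderOf σ) := by sorry

/-! ## F7 : file Lib/FrobDensity/Unramified.lean -/

theorem exists_finset_inertia_eq_bot (E : Type*) [Field E] [NumberField E] [IsGalois ℚ E] :
    ∃ Bad : Finset ℕ, ∀ ℓ : ℕ, ℓ.Prime → ℓ ∉ Bad → ∀ P : Ideal (𝓞 E), P.IsPrime →
      (ℓ : 𝓞 E) ∈ P → Ideal.inertia (E ≃ₐ[ℚ] E) P = ⊥ := by sorry

/-! ## F8 : file Lib/FrobDensity/Stabilizer.lean -/

/-- number field form of the theorem -/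
theorem exists_prime_stabilizer_eq_zpowers (E : Type*) [Field E] [NumberField E] [IsGalois ℚ E]
    (σ : E ≃ₐ[ℚ] E) (S : Finset ℕ) :
    ∃ (ℓ : ℕ) (P : Ideal (𝓞 E)), ℓ.Prime ∧ ℓ ∉ S ∧ P.IsPrime ∧ (ℓ : 𝓞 E) ∈ P ∧
      Ideal.inertia (E ≃ₐ[ℚ] E) P = ⊥ ∧
      MulAction.stabilizer (E ≃ₐ[ℚ] E) P = Subgroup.zpowers σ := by sorry

/-! ## F9 : file Lib/FrobDensity/Bridge.lean -/

theorem exists_frobenius_of_inertia_eq_bot
    (E : IntermediateField ℚ (AlgebraicClosure ℚ)) [NumberField E] [IsGalois ℚ E]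
    (ℓ : ℕ) (hℓ : ℓ.Prime) (P : Ideal (𝓞 E)) (hP : P.IsPrime) (hℓP : (ℓ : 𝓞 E) ∈ P)
    (hI : Ideal.inertia (E ≃ₐ[ℚ] E) P = ⊥) :
    ∃ (A : ValuationSubring (AlgebraicClosure ℚ))
      (φ : AlgebraicClosure ℚ ≃ₐ[ℚ] AlgebraicClosure ℚ),
      A.LiesOverPrime ℓ ∧ A.IsFrobeniusAt φ ℓ ∧
      MulAction.stabilizer (E ≃ₐ[ℚ] E) P =
        Subgroup.zpowers (AlgEquiv.restrictNormalHom E φ) := by sorry

/-! ## F10 : file Lib/FrobDensity.lean -/

theorem exists_frobenius_generator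
    (L : IntermediateField ℚ (AlgebraicClosure ℚ)) [FiniteDimensional ℚ L]
    (σ : AlgebraicClosure ℚ ≃ₐ[ℚ] AlgebraicClosure ℚ) (S : Finset ℕ) :
    ∃ (ℓ : ℕ) (A : ValuationSubring (AlgebraicClosure ℚ))
      (φ : AlgebraicClosure ℚ ≃ₐ[ℚ] AlgebraicClosure ℚ) (a b : ℕ),
      ℓ.Prime ∧ ℓ ∉ S ∧ A.LiesOverPrime ℓ ∧ A.IsFrobeniusAt φ ℓ ∧
      (∀ x ∈ L, φ x = (σ ^ a) x) ∧ (∀ x ∈ L, (φ ^ b) x = σ x) := by sorry

end Fermat.Agent.Lib.FrobDensity
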